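import Mathlib.NumberTheory.LSeries.Positivity

/-!
# Landau's argument on a disc

If an L-series with nonnegative coefficients agrees on a half plane of convergence with a function
holomorphic on a disc around a real point `c` of that half plane, its partial sums at the real
points of the disc to the left of `c` are at most that function.
-/

set_option autoImplicit false

noncomputable section

open Complex LSeries
open scoped ComplexOrder

namespace FA.Signs

theorem differentiable_term (a : ℕ → ℂ) (n : ℕ) : Differentiable ℂ fun s => term a s n := by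
  rcases eq_or_ne n 0 with rfl | hn
  · simp only [term_zero]; exact differentiable_const 0
  · simp only [term_of_ne_zero hn]
    intro s
    exact (differentiableAt_const _).div
      (differentiableAt_id.const_cpow (Or.inl (Nat.cast_ne_zero.mpr hn)))
      (by simp [Complex.cpow_eq_zero_iff, hn])

/-- The coefficients with those of indices in `T` removed. -/
def removed (a : ℕ → ℂ) (T : Finset ℕ) (n : ℕ) : ℂ := if n ∈ T then 0 else a n

theorem term_removed (a : ℕ → ℂ) (T : Finset ℕ) (s : ℂ) (n : ℕ) :
    term (removed a T) s n = if n ∈ T then 0 else term a s n := by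
  rcases eq_or_ne n 0 with rfl | hn
  · simp
  · rw [term_of_ne_zero hn, term_of_ne_zero hn, removed]
    split_ifs <;> simp

theorem hasSum_removed {a : ℕ → ℂ} (T : Finset ℕ) {s : ℂ} (h : LSeriesSummable a s) :
    LSeriesHasSum (removed a T) s (LSeries a s - ∑ n ∈ T, term a s n) := by
  have h1 : HasSum (fun n => if n ∈ T then term a s n else 0) (∑ n ∈ T, term a s n) := by
    have h2 := hasSum_sum_of_ne_finset_zero (L := SummationFilter.unconditional ℕ)
      (f := fun n => if n ∈ T then term a s n else 0) (s := T) fun n hn => if_neg hn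
    rwa [Finset.sum_congr rfl fun n hn => if_pos hn] at h2
  refine (h.LSeriesHasSum.sub h1).congr_fun fun n => ?_
  rw [term_removed]
  split_ifs <;> simp

/-- **Landau's bound** for partial sums. -/
theorem sum_term_le {a : ℕ → ℂ} (ha : 0 ≤ a) {x₀ c r : ℝ} (hc : x₀ < c)
    (hsum : ∀ s : ℂ, x₀ < s.re → LSeriesSummable a s) {F : ℂ → ℂ}
    (hF : DifferentiableOn ℂ F (Metric.ball (c : ℂ) r))
    (heq : Set.EqOn F (LSeries a) {s | x₀ < s.re}) (T : Finset ℕ) {x : ℝ} (hx : x ≤ c)
    (hxr : c - r < x) : ∑ n ∈ T, term a x n ≤ F x := by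
  set P : ℂ → ℂ := fun s => ∑ n ∈ T, term a s n
  set G : ℂ → ℂ := fun s => F s - P s
  have hP : Differentiable ℂ P := by
    intro s
    exact DifferentiableAt.fun_sum fun n _ => differentiable_term a n s
  have hG : DifferentiableOn ℂ G (Metric.ball (c : ℂ) r) := hF.sub hP.differentiableOn
  have hs : IsOpen {s : ℂ | x₀ < s.re} := continuous_re.isOpen_preimage _ isOpen_Ioi
  have hGeq : Set.EqOn G (LSeries (removed a T)) {s | x₀ < s.re} := fun s hs' => by
    simp only [G, P, heq hs', (hasSum_removed T (hsum s hs')).LSeries_eq]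
  have ha' : 0 ≤ removed a T := fun n => by
    rw [removed]
    split_ifs
    · exact le_rfl
    · exact ha n
  have habs : abscissaOfAbsConv (removed a T) < c :=
    (abscissaOfAbsConv_le_of_forall_lt_LSeriesSummable fun y hy =>
      (hasSum_removed T (hsum y (by simpa using hy))).LSeriesSummable).trans_lt
      (by exact_mod_cast hc)
  set g : ℂ → ℂ := fun w => G (-w)
  have hg : DifferentiableOn ℂ g (Metric.ball (-(c : ℂ)) r) := by
    refine hG.comp differentiable_neg.differentiableOn fun w hw => ?_
    simp only [Metric.mem_ball, dist_eq] at hw ⊢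
    rwa [show -w - (c : ℂ) = -(w - -(c : ℂ)) by ring, norm_neg]
  have hd : ∀ n, 0 ≤ iteratedDeriv n g (-(c : ℂ)) := fun n => by
    rw [iteratedDeriv_comp_neg, neg_neg, smul_eq_mul,
      hGeq.iteratedDeriv_of_isOpen hs n (by simpa using hc)]
    exact iteratedDeriv_alternating ha' habs n
  have h := hg.nonneg_of_iteratedDeriv_nonneg hd (z := (-(x : ℂ)))
    (by simpa [Complex.le_def] using hx) ?_
  · simpa [g, G, P, sub_nonneg] using h
  · rw [Metric.mem_ball, dist_eq, show -(x : ℂ) - -(c : ℂ) = ((c - x : ℝ) : ℂ) by push_cast; ring,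
      norm_real, Real.norm_eq_abs, abs_of_nonneg (by linarith)]
    linarith

/-- An L-series with nonnegative integral coefficients and an entire continuation has only
finitely many nonzero coefficients. -/
theorem finite_support_of_nonneg {a : ℕ → ℤ} (h0 : a 0 = 0) (ha : ∀ n, 0 ≤ a n) {x₀ : ℝ}
    (hsum : ∀ s : ℂ, x₀ < s.re → LSeriesSummable (fun n => (a n : ℂ)) s) {F : ℂ → ℂ}
    (hF : Differentiable ℂ F)
    (heq : Set.EqOn F (LSeries fun n => (a n : ℂ)) {s | x₀ < s.re}) :
    {n | a n ≠ 0}.Finite := by
  by_contra hinf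
  set M : ℕ := ⌈(F 0).re⌉₊ + 1
  obtain ⟨T, hT, hcard⟩ := Set.Infinite.exists_subset_card_eq hinf M
  have h := sum_term_le (a := fun n => (a n : ℂ)) (fun n => by simpa using ha n)
    (c := max x₀ 0 + 1) (r := max x₀ 0 + 2) (by linarith [le_max_left x₀ 0]) hsum
    hF.differentiableOn heq T (x := 0) (by linarith [le_max_right x₀ 0]) (by linarith)
  have hterm : ∀ n ∈ T, term (fun n => (a n : ℂ)) ((0 : ℝ) : ℂ) n = ((a n : ℝ) : ℂ) := fun n hn => by
    have : n ≠ 0 := fun e => hT hn (by rw [e, h0])
    simp [term_of_ne_zero this]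
  rw [Finset.sum_congr rfl hterm, ← Complex.ofReal_sum, Complex.ofReal_zero] at h
  have h1 : (M : ℝ) ≤ ∑ n ∈ T, (a n : ℝ) := by
    rw [← hcard, Finset.cast_card]
    refine Finset.sum_le_sum fun n hn => ?_
    have := ha n
    have := hT hn
    exact_mod_cast (by simp only [Set.mem_ofPred_eq] at *; omega : (1 : ℤ) ≤ a n)
  have h2 := (Complex.le_def.mp h).1
  rw [Complex.ofReal_re] at h2
  have h3 := Nat.le_ceil (F 0).re
  simp only [M, Nat.cast_add, Nat.cast_one] at h1
  linarith

end FA.Signs

end
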