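import Mathlib.Analysis.Complex.Norm
import Mathlib.Analysis.SpecialFunctions.Pow.Real

/-!
# The local factors of `L(E, s) ζ(2s - 1)²`

For `0 ≤ a` and `a² ≤ 4p` the power series `1 / ((1 - a X + p X²) (1 - p X²)²)` has nonnegative
coefficients. It is `1 + a X + p X²` times the series in `Y = X²` of
`1 / ((1 - t Y + p² Y²) (1 - p Y)²)`, `t = a² - 2p`, whose `m`-th coefficient times `2p - t` is
`(m + 2) p^(m + 1) - v_(m + 1)`, where `|v_m| ≤ (m + 1) p^m`.
-/

set_option autoImplicit false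

noncomputable section

namespace FA.Signs

/-- Coefficients of a recurrence with two roots of absolute value `p`. -/
theorem le_of_rec {p t : ℝ} (hp : 0 < p) (ht : |t| ≤ 2 * p) {v : ℕ → ℝ} (h0 : v 0 = 1)
    (h1 : v 1 = t) (hv : ∀ m, v (m + 2) = t * v (m + 1) - p ^ 2 * v m) (m : ℕ) :
    v m ≤ (m + 1) * p ^ m := by
  have hsq : 0 ≤ p ^ 2 - t ^ 2 / 4 := by nlinarith [abs_le.mp ht]
  set α : ℂ := ⟨t / 2, Real.sqrt (p ^ 2 - t ^ 2 / 4)⟩
  set β : ℂ := ⟨t / 2, -Real.sqrt (p ^ 2 - t ^ 2 / 4)⟩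
  have hsum : α + β = (t : ℂ) := Complex.ext (by simp [α, β]) (by simp [α, β])
  have hprod : α * β = ((p ^ 2 : ℝ) : ℂ) := Complex.ext
    (by simp [α, β, Real.mul_self_sqrt hsq, -Complex.ofReal_pow]; ring)
    (by simp [α, β, -Complex.ofReal_pow]; ring)
  have hnorm : ∀ z : ℂ, z = α ∨ z = β → ‖z‖ = p := fun z hz => by
    rw [Complex.norm_def, Complex.normSq_apply]
    rcases hz with rfl | rfl <;>
      · simp only [α, β, neg_mul_neg, Real.mul_self_sqrt hsq]
        rw [show t / 2 * (t / 2) + (p ^ 2 - t ^ 2 / 4) = p ^ 2 by ring, Real.sqrt_sq hp.le]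
  have hstep : ∀ m, (v (m + 1) : ℂ) - α * v m = β ^ (m + 1) := fun m => by
    induction m with
    | zero => rw [h1, h0, ← hsum]; push_cast; ring
    | succ m ih =>
      rw [pow_succ, ← ih, hv m, Complex.ofReal_sub, Complex.ofReal_mul, Complex.ofReal_mul,
        ← hsum, ← hprod]
      ring
  have hb : ∀ m, ‖(v m : ℂ)‖ ≤ (m + 1) * p ^ m := fun m => by
    induction m with
    | zero => simp [h0]
    | succ m ih =>
      rw [show (v (m + 1) : ℂ) = β ^ (m + 1) + α * v m by rw [← hstep m]; ring]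
      refine (norm_add_le _ _).trans ?_
      rw [norm_pow, norm_mul, hnorm β (Or.inr rfl), hnorm α (Or.inl rfl)]
      calc p ^ (m + 1) + p * ‖(v m : ℂ)‖ ≤ p ^ (m + 1) + p * ((m + 1) * p ^ m) :=
            add_le_add le_rfl (mul_le_mul_of_nonneg_left ih hp.le)
        _ = _ := by push_cast; ring
  exact (le_abs_self _).trans (by simpa [Complex.norm_real] using hb m)

/-- The sequences `v`, `f`, `e`. -/
def vSeq (p t : ℝ) : ℕ → ℝ
  | 0 => 1
  | 1 => t
  | m + 2 => t * vSeq p t (m + 1) - p ^ 2 * vSeq p t m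

/-- The sums of `v` weighted by the powers of `p`. -/
def fSeq (p t : ℝ) : ℕ → ℝ
  | 0 => 1
  | m + 1 => vSeq p t (m + 1) + p * fSeq p t m

/-- The sums of `f` weighted by the powers of `p`. -/
def eSeq (p t : ℝ) : ℕ → ℝ
  | 0 => 1
  | m + 1 => fSeq p t (m + 1) + p * eSeq p t m

theorem mul_fSeq (p t : ℝ) : ∀ m,
    (2 * p - t) * fSeq p t m = p ^ (m + 1) + p * vSeq p t m - vSeq p t (m + 1)
  | 0 => by simp only [fSeq, vSeq]; ring
  | m + 1 => by
    have h := mul_fSeq p t m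
    rw [fSeq, show vSeq p t (m + 1 + 1) = t * vSeq p t (m + 1) - p ^ 2 * vSeq p t m from rfl]
    linear_combination p * h

theorem mul_eSeq (p t : ℝ) : ∀ m : ℕ,
    (2 * p - t) * eSeq p t m = ((m : ℝ) + 2) * p ^ (m + 1) - vSeq p t (m + 1)
  | 0 => by simp only [eSeq, vSeq]; push_cast; ring
  | m + 1 => by
    have h := mul_eSeq p t m
    have h' := mul_fSeq p t (m + 1)
    rw [eSeq]
    push_cast
    linear_combination p * h + h'

theorem eSeq_nonneg {p t : ℝ} (hp : 0 < p) (ht : |t| ≤ 2 * p) (m : ℕ) : 0 ≤ eSeq p t m := by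
  rcases ((abs_le.mp ht).2).eq_or_lt with he | hlt
  · have hv : ∀ k, vSeq p t k = (k + 1) * p ^ k ∧ vSeq p t (k + 1) = (k + 2) * p ^ (k + 1) :=
      fun k => by
      induction k with
      | zero => exact ⟨by simp [vSeq], by simp [vSeq, he]⟩
      | succ k ih =>
        refine ⟨by rw [ih.2]; push_cast; ring, ?_⟩
        rw [show vSeq p t (k + 1 + 1) = t * vSeq p t (k + 1) - p ^ 2 * vSeq p t k from rfl, ih.1,
          ih.2, he]
        push_cast
        ring
    have hf : ∀ k, 0 ≤ fSeq p t k := fun k => by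
      induction k with
      | zero => simp [fSeq]
      | succ k ih =>
        rw [fSeq, (hv k).2]
        positivity
    induction m with
    | zero => simp [eSeq]
    | succ m ih =>
      rw [eSeq]
      exact add_nonneg (hf _) (mul_nonneg hp.le ih)
  · refine nonneg_of_mul_nonneg_right ?_ (sub_pos.mpr hlt)
    rw [mul_eSeq]
    have := le_of_rec hp ht rfl rfl (fun m => rfl) (v := vSeq p t) (m + 1)
    push_cast at this
    linarith

/-- **Nonnegativity**: the coefficients `C` of `1 / ((1 - a X + p X²) (1 - p X²)²)`. -/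
theorem local_nonneg {p a : ℝ} (hp : 0 < p) (ha : 0 ≤ a) (hab : a ^ 2 ≤ 4 * p) {u D C : ℕ → ℝ}
    (hu0 : u 0 = 1) (hu1 : u 1 = a) (hu : ∀ k, u (k + 2) = a * u (k + 1) - p * u k)
    (hD0 : D 0 = 1) (hD1 : D 1 = a) (hD : ∀ k, D (k + 2) = u (k + 2) + p * D k)
    (hC0 : C 0 = 1) (hC1 : C 1 = a) (hC : ∀ k, C (k + 2) = D (k + 2) + p * C k) (k : ℕ) :
    0 ≤ C k := by
  set t := a ^ 2 - 2 * p with ht
  have key : ∀ m, (u (2 * m + 1) = a * vSeq p t m ∧
      u (2 * m + 2) = vSeq p t (m + 1) + p * vSeq p t m) ∧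
      (D (2 * m + 1) = a * fSeq p t m ∧ D (2 * m + 2) = fSeq p t (m + 1) + p * fSeq p t m) ∧
      (C (2 * m + 1) = a * eSeq p t m ∧ C (2 * m + 2) = eSeq p t (m + 1) + p * eSeq p t m) := by
    intro m
    induction m with
    | zero =>
      simp only [Nat.mul_zero, Nat.zero_add, eSeq, fSeq, vSeq, hC 0, hD 0, hu 0, hC1, hD1, hu1,
        hC0, hD0, hu0, ht]
      exact ⟨⟨by ring, by ring⟩, ⟨by ring, by ring⟩, by ring, by ring⟩
    | succ m ih =>
      obtain ⟨⟨u1, u2⟩, ⟨D1, D2⟩, C1, C2⟩ := ih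
      have u3 : u (2 * m + 3) = a * vSeq p t (m + 1) := by
        rw [show 2 * m + 3 = (2 * m + 1) + 2 by ring, hu, show 2 * m + 1 + 1 = 2 * m + 2 by ring,
          u1, u2]
        ring
      have u4 : u (2 * m + 4) = vSeq p t (m + 2) + p * vSeq p t (m + 1) := by
        rw [show 2 * m + 4 = (2 * m + 2) + 2 by ring, hu, show 2 * m + 2 + 1 = 2 * m + 3 by ring,
          u3, u2, vSeq, ht]
        ring
      have D3 : D (2 * m + 3) = a * fSeq p t (m + 1) := by
        rw [show 2 * m + 3 = (2 * m + 1) + 2 by ring, hD, show 2 * m + 1 + 2 = 2 * m + 3 by ring,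
          u3, D1, fSeq]
        ring
      have D4 : D (2 * m + 4) = fSeq p t (m + 2) + p * fSeq p t (m + 1) := by
        rw [show 2 * m + 4 = (2 * m + 2) + 2 by ring, hD, show 2 * m + 2 + 2 = 2 * m + 4 by ring,
          u4, D2, fSeq.eq_2 p t (m + 1), fSeq.eq_2 p t m]
        ring
      have C3 : C (2 * m + 3) = a * eSeq p t (m + 1) := by
        rw [show 2 * m + 3 = (2 * m + 1) + 2 by ring, hC, show 2 * m + 1 + 2 = 2 * m + 3 by ring,
          D3, C1, eSeq]
        ring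
      have C4 : C (2 * m + 4) = eSeq p t (m + 2) + p * eSeq p t (m + 1) := by
        rw [show 2 * m + 4 = (2 * m + 2) + 2 by ring, hC, show 2 * m + 2 + 2 = 2 * m + 4 by ring,
          D4, C2, eSeq.eq_2 p t (m + 1), eSeq.eq_2 p t m]
        ring
      exact ⟨⟨u3, u4⟩, ⟨D3, D4⟩, C3, C4⟩
  have htb : |t| ≤ 2 * p := abs_le.mpr ⟨by nlinarith [sq_nonneg a], by linarith⟩
  have he := eSeq_nonneg hp htb
  obtain rfl | hk := Nat.eq_zero_or_pos k
  · rw [hC0]; norm_num
  · obtain ⟨m, rfl | rfl⟩ : ∃ m, k = 2 * m + 1 ∨ k = 2 * m + 2 := ⟨(k - 1) / 2, by omega⟩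
    · rw [(key m).2.2.1]
      exact mul_nonneg ha (he m)
    · rw [(key m).2.2.2]
      exact add_nonneg (he _) (mul_nonneg hp.le (he m))

end FA.Signs

end
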