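import Fermat.Agent.Signs.Series
import Fermat.Agent.Root.SummarySupersingularDensity

/-!
# Infinitely many negative traces of Frobenius

If `a_p ≥ 0` for almost all `p`, the products `∏ (1 + a_p p^(-s))` over finite sets of primes are
partial sums of `L^S(E, s) ζ(2s - 1)²`, so by Landau `O((s - 1)^(-2))` as `s → 1`. But for a large
`l` at least a quarter of the primes have `a_p` congruent modulo `l` to a number in `[l/2, l)`, so
`a_p ≥ l/2`, and `∑ a_p p^(-s)` is at least `(l/16) log (1/(s - 1))`.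
-/

set_option autoImplicit false
set_option linter.style.haveILetI false

noncomputable section

open Filter Topology WeierstrassCurve Matrix
open scoped ComplexOrder

local notation "Qb" => AlgebraicClosure ℚ
local notation "GQ" => AlgebraicClosure ℚ ≃ₐ[ℚ] AlgebraicClosure ℚ

namespace FA.Signs

variable (E : WeierstrassCurve ℚ)

/-- The bound for the sums over primes with nonnegative traces. -/
theorem exists_sum_primes_bound {g : ℂ → ℂ} (hg : Differentiable ℂ g)
    (heq : ∀ s : ℂ, 3 / 2 < s.re → LSeriesSummable ((↑) ∘ E.LFunction) s ∧ E.LSeries s = g s)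
    {S : Finset ℕ} (hS : ∀ p ∈ S, p.Prime)
    (hgood : ∀ p : ℕ, p.Prime → p ∉ S → (E.LFunction p) ^ 2 ≤ 4 * p ∧ 0 ≤ E.LFunction p ∧
      ∀ r, E.LFunction (p ^ (r + 2)) =
        E.LFunction p * E.LFunction (p ^ (r + 1)) - p * E.LFunction (p ^ r)) :
    ∃ B : ℝ, ∀ᶠ x : ℝ in 𝓝[>] 1, ∀ T : Finset ℕ, (∀ p ∈ T, p.Prime ∧ p ∉ S) →
      ∑ p ∈ T, (E.LFunction p : ℝ) * (p : ℝ) ^ (-x) ≤ 6 * Real.log (1 / (x - 1)) + B := by
  obtain ⟨F, hF, hFs, K, hK, hbound⟩ := exists_boosted_continuation E S hg heq hS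
  refine ⟨3 * Real.log K, ?_⟩
  filter_upwards [hbound, self_mem_nhdsWithin, Ioo_mem_nhdsGT (show (1 : ℝ) < 2 by norm_num)]
    with x hFx hx1 hx T hT
  set y : ℕ → ℝ := fun p => (E.LFunction p : ℝ) * (p : ℝ) ^ (-x)
  have hy : ∀ p ∈ T, 0 ≤ y p ∧ y p ≤ 2 := fun p hp => by
    obtain ⟨hab, ha, -⟩ := hgood p (hT p hp).1 (hT p hp).2
    have hp2 : (2 : ℝ) ≤ p := by exact_mod_cast (hT p hp).1.two_le
    have ha' : (0 : ℝ) ≤ E.LFunction p := by exact_mod_cast ha
    have hab' : (E.LFunction p : ℝ) ^ 2 ≤ 4 * p := by exact_mod_cast hab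
    refine ⟨mul_nonneg ha' (Real.rpow_nonneg (by linarith) _), ?_⟩
    calc (E.LFunction p : ℝ) * (p : ℝ) ^ (-x) ≤ (E.LFunction p : ℝ) * (p : ℝ) ^ (-(1 : ℝ)) :=
          mul_le_mul_of_nonneg_left (Real.rpow_le_rpow_of_exponent_le (by linarith)
            (by linarith [hx.1])) ha'
      _ ≤ 2 := by
          rw [Real.rpow_neg_one, ← div_eq_mul_inv, div_le_iff₀ (by linarith)]
          nlinarith
  -- the products are partial sums
  have hinj : Set.InjOn (fun A : Finset ℕ => ∏ p ∈ A, p) (T.powerset : Set (Finset ℕ)) := by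
    intro A hA B hB e
    simp only [Finset.coe_powerset, Set.mem_preimage, Set.mem_powerset_iff, Finset.coe_subset] at hA hB
    rw [← Nat.primeFactors_prod fun p hp => (hT p (hA hp)).1,
      ← Nat.primeFactors_prod fun p hp => (hT p (hB hp)).1]
    exact congrArg Nat.primeFactors e
  have hterm : ∀ A ∈ T.powerset, LSeries.term (fun n => (boosted E S n : ℂ)) (x : ℂ) (∏ p ∈ A, p) =
      ((∏ p ∈ A, y p : ℝ) : ℂ) := fun A hA => by
    have hA' : ∀ p ∈ A, p.Prime := fun p hp => (hT p (Finset.mem_powerset.mp hA hp)).1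
    have h0 : ∏ p ∈ A, p ≠ 0 := Finset.prod_ne_zero_iff.mpr fun p hp => (hA' p hp).ne_zero
    rw [LSeries.term_of_ne_zero h0, (isMultiplicative_boosted E S hS).map_prod_of_prime A hA',
      Finset.prod_congr rfl fun p hp => boosted_prime E S hS (hA' p hp)
        (hT p (Finset.mem_powerset.mp hA hp)).2, Finset.prod_mul_distrib,
      Real.finsetProd_rpow _ _ (fun p _ => Nat.cast_nonneg p), ← Nat.cast_prod,
      Real.rpow_neg (Nat.cast_nonneg _), div_eq_mul_inv, Complex.ofReal_mul, Complex.ofReal_inv,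
      Complex.ofReal_cpow (Nat.cast_nonneg _), Complex.ofReal_natCast, Int.cast_prod,
      Complex.ofReal_prod]
    simp only [Complex.ofReal_intCast]
  have hball : Metric.ball ((2 : ℝ) : ℂ) 1 ⊆ {s : ℂ | 1 < s.re} := fun s hs => by
    rw [Metric.mem_ball, dist_eq_norm] at hs
    have := (abs_lt.mp ((Complex.abs_re_le_norm _).trans_lt hs)).1
    simp at this
    show (1 : ℝ) < s.re
    linarith
  have hL := sum_term_le (a := fun n => (boosted E S n : ℂ))
    (fun n => by simpa using boosted_nonneg E S hS hgood n) (x₀ := 3 / 2) (c := 2) (r := 1)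
    (by norm_num) (fun s hs => (hFs s hs).1) (hF.mono hball) (fun s hs => (hFs s hs).2.symm)
    (T.powerset.image fun A => ∏ p ∈ A, p) (x := x) hx.2.le (by linarith [hx.1])
  rw [Finset.sum_image hinj, Finset.sum_congr rfl hterm, ← Complex.ofReal_sum,
    ← Finset.prod_one_add] at hL
  have hprod : ∏ p ∈ T, (1 + y p) ≤ K / (x - 1) ^ 2 := by
    refine le_trans ?_ hFx
    have := (Complex.le_def.mp hL).1
    rw [Complex.ofReal_re] at this
    exact this.trans (Complex.re_le_norm _)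
  have hpos : ∀ p ∈ T, 0 < 1 + y p := fun p hp => by linarith [(hy p hp).1]
  have hlog := Real.log_le_log (Finset.prod_pos hpos) hprod
  rw [Real.log_prod fun p hp => (hpos p hp).ne', Real.log_div hK.ne'
    (pow_ne_zero 2 (by linarith [hx.1])), Real.log_pow] at hlog
  have hle : ∀ p ∈ T, y p ≤ 3 * Real.log (1 + y p) := fun p hp => by
    have h1 := Real.one_sub_inv_le_log_of_pos (hpos p hp)
    obtain ⟨h2, h3⟩ := hy p hp
    have h4 : y p / 3 ≤ 1 - (1 + y p)⁻¹ := by
      rw [le_sub_iff_add_le, ← le_sub_iff_add_le', inv_le_iff_one_le_mul₀ (hpos p hp)]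
      nlinarith
    linarith
  calc ∑ p ∈ T, y p ≤ ∑ p ∈ T, 3 * Real.log (1 + y p) := Finset.sum_le_sum hle
    _ ≤ _ := by
        rw [← Finset.mul_sum, one_div, Real.log_inv]
        push_cast at hlog
        linarith

variable [E.IsElliptic]

/-- A quarter of the invertible matrices have the trace in the upper half of the residues. -/
theorem quarter_le {l : ℕ} [hl : Fact l.Prime] (h3 : 3 ≤ l) :
    (1 : ℝ) / 4 ≤ (Nat.card {g : GL (Fin 2) (ZMod l) //
      l < 2 * (g : Matrix (Fin 2) (Fin 2) (ZMod l)).trace.val} : ℝ) /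
        Fintype.card (GL (Fin 2) (ZMod l)) := by
  have hodd : l % 2 = 1 := (hl.out.eq_two_or_odd).resolve_left (by omega)
  set m := l / 2 with hm
  let t : Fin m → ZMod l := fun j => ((m + 1 + j : ℕ) : ZMod l)
  have ht : ∀ j, (t j).val = m + 1 + j := fun j => ZMod.val_natCast_of_lt (by omega)
  let M : Fin m × ZMod l × (ZMod l)ˣ × (ZMod l)ˣ → Matrix (Fin 2) (Fin 2) (ZMod l) := fun v =>
    !![v.2.1, (v.2.2.1 : ZMod l);
      (v.2.1 * (t v.1 - v.2.1) - v.2.2.2) / v.2.2.1, t v.1 - v.2.1]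
  have hdet : ∀ v, (M v).det = v.2.2.2 := fun v => by
    simp only [M, Matrix.det_fin_two_of]
    rw [mul_div_cancel₀ _ v.2.2.1.ne_zero]
    ring
  have htr : ∀ v, (M v).trace = t v.1 := fun v => by simp [M, Matrix.trace_fin_two]
  let ψ : Fin m × ZMod l × (ZMod l)ˣ × (ZMod l)ˣ → {g : GL (Fin 2) (ZMod l) //
      l < 2 * (g : Matrix (Fin 2) (Fin 2) (ZMod l)).trace.val} := fun v =>
    ⟨Matrix.GeneralLinearGroup.mkOfDetNeZero (M v) (by rw [hdet]; exact v.2.2.2.ne_zero), by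
      show l < 2 * (M v).trace.val
      rw [htr, ht]; omega⟩
  have hψ : Function.Injective ψ := fun v w e => by
    have hM : M v = M w := congrArg Units.val (congrArg Subtype.val e)
    have e1 : v.2.1 = w.2.1 := congrArg (fun A => A 0 0) hM
    have e2 : v.2.2.1 = w.2.2.1 := Units.ext (congrArg (fun A => A 0 1) hM)
    have e3 : t v.1 = t w.1 := by rw [← htr v, ← htr w, hM]
    have e4 : v.2.2.2 = w.2.2.2 := Units.ext (by rw [← hdet v, ← hdet w, hM])
    have e5 : v.1 = w.1 := by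
      have := congrArg ZMod.val e3
      rw [ht, ht] at this
      exact Fin.ext (by omega)
    exact Prod.ext e5 (Prod.ext e1 (Prod.ext e2 e4))
  have hcard := Nat.card_le_card_of_injective ψ hψ
  rw [Nat.card_prod, Nat.card_prod, Nat.card_prod, Nat.card_fin, Nat.card_zmod,
    Nat.card_eq_fintype_card (α := (ZMod l)ˣ), ZMod.card_units] at hcard
  rw [← Nat.card_eq_fintype_card (α := GL (Fin 2) (ZMod l)), Matrix.card_GL_field, ZMod.card,
    Fin.prod_univ_two]
  simp only [Fin.val_zero, Fin.val_one, pow_zero, pow_one]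
  have hl1 : 1 ≤ l ^ 2 := Nat.one_le_pow _ _ hl.out.pos
  have hll : l ≤ l ^ 2 := Nat.le_self_pow two_ne_zero l
  push_cast [Nat.cast_sub hl1, Nat.cast_sub hll]
  have hc : ((m * (l * ((l - 1) * (l - 1))) : ℕ) : ℝ) ≤ (Nat.card {g : GL (Fin 2) (ZMod l) //
      l < 2 * (g : Matrix (Fin 2) (Fin 2) (ZMod l)).trace.val} : ℝ) := by exact_mod_cast hcard
  rw [Nat.cast_mul, Nat.cast_mul, Nat.cast_mul, Nat.cast_sub hl.out.one_le, Nat.cast_one] at hc
  have hm' : (l : ℝ) = 2 * m + 1 := by exact_mod_cast (show l = 2 * m + 1 by omega)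
  have h3' : (3 : ℝ) ≤ l := by exact_mod_cast h3
  rw [div_le_div_iff₀ (by norm_num) (mul_pos (by nlinarith) (by nlinarith))]
  have key : ((l : ℝ) ^ 2 - 1) * ((l : ℝ) ^ 2 - l) ≤ 4 * (m * (l * ((l - 1) * (l - 1)))) := by
    rw [show ((l : ℝ) ^ 2 - 1) * ((l : ℝ) ^ 2 - l) = ((l : ℝ) + 1) * (l * ((l - 1) * (l - 1))) by
      ring, show (4 : ℝ) * (m * (l * ((l - 1) * (l - 1)))) =
        4 * m * (l * ((l - 1) * (l - 1))) by ring]
    exact mul_le_mul_of_nonneg_right (by linarith) (by nlinarith)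
  linarith

/-- **Infinitely many negative traces**, from the entire continuation and a pole of `j`. -/
theorem infinite_negative_of_pole
    (hL : ∃ g : ℂ → ℂ, Differentiable ℂ g ∧ ∀ s : ℂ, 3 / 2 < s.re →
      LSeriesSummable ((↑) ∘ E.LFunction) s ∧ E.LSeries s = g s)
    (hj : ∃ q : ℕ, q.Prime ∧ padicValRat q E.j < 0) :
    {p : ℕ | p.Prime ∧ E.LFunction p < 0}.Infinite := by
  intro hfin
  obtain ⟨g, hg, heq⟩ := hL
  obtain ⟨W, C, hW⟩ := FA.Frob.exists_integralModel E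
  have hW' : W.IsIntegralModelOf E := ⟨C, hW⟩
  have hΔ := FA.Frob.Δ_ne_zero_of_model hW'
  haveI := FA.Frob.ratCurve_isElliptic_of_Δ hΔ
  set S := hfin.toFinset ∪ W.Δ.natAbs.primeFactors with hSdef
  have hS : ∀ p ∈ S, p.Prime := fun p hp => by
    rcases Finset.mem_union.mp hp with hp | hp
    exacts [(hfin.mem_toFinset.mp hp).1, Nat.prime_of_mem_primeFactors hp]
  have hgoodW : ∀ p : ℕ, p.Prime → p ∉ S → ¬ (p : ℤ) ∣ W.Δ := fun p hp hpS hd =>
    hpS (Finset.mem_union_right _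
      (Nat.mem_primeFactors.mpr ⟨hp, Int.natCast_dvd.mp hd, Int.natAbs_ne_zero.mpr hΔ⟩))
  have hgood : ∀ p : ℕ, p.Prime → p ∉ S → (E.LFunction p) ^ 2 ≤ 4 * p ∧ 0 ≤ E.LFunction p ∧
      ∀ r, E.LFunction (p ^ (r + 2)) =
        E.LFunction p * E.LFunction (p ^ (r + 1)) - p * E.LFunction (p ^ r) := fun p hp hpS => by
    refine ⟨FA.Summary.hasse_LFunction E W C hW hp (hgoodW p hp hpS), ?_, fun r => ?_⟩
    · by_contra hneg
      exact hpS (Finset.mem_union_left _ (hfin.mem_toFinset.mpr ⟨hp, not_le.mp hneg⟩))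
    · rw [FA.Root.LFunction_apply_prime E W hW' hp (hgoodW p hp hpS)]
      exact FA.Root.LFunction_apply_prime_pow_good E W hW' hp (hgoodW p hp hpS) r
  obtain ⟨B, hB⟩ := exists_sum_primes_bound E hg heq hS hgood
  obtain ⟨M, hM⟩ := FA.Summary.galoisSurjectiveTorsion_large E hj
  obtain ⟨l, hl, hlp⟩ := Nat.exists_infinite_primes (max M 200 + 1)
  haveI := Fact.mk hlp
  let π : GQ →* GL (Fin 2) (ZMod l) := (FA.RT.curveRep l W).toHomUnits
  have hπ : Function.Surjective π := fun M' => by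
    obtain ⟨σ, hσ⟩ := FA.Supersingular.exists_curveRep_eq_of_surjective hW'
      (fun φ => hM l hlp (by omega) φ) (M := (M' : Matrix (Fin 2) (Fin 2) (ZMod l)))
      (M'.isUnit.map Matrix.detMonoidHom).ne_zero
    exact ⟨σ, Units.ext hσ⟩
  have hker : IsOpen (π.ker : Set GQ) := Subgroup.isOpen_mono
    (fun σ hσ => MonoidHom.mem_ker.mpr (Units.ext (MonoidHom.mem_ker.mp hσ)))
    (FA.RT.isOpen_ker_curveRep W)
  let X : Set (GL (Fin 2) (ZMod l)) :=
    {g | l < 2 * (g : Matrix (Fin 2) (Fin 2) (ZMod l)).trace.val}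
  have hX : ∀ g ∈ X, ∀ x, x * g * x⁻¹ ∈ X := fun g hg x => by
    show l < 2 * (Matrix.trace (_ : Matrix (Fin 2) (Fin 2) (ZMod l))).val
    rw [Units.val_mul, Units.val_mul, Matrix.trace_mul_cycle, ← Units.val_mul, inv_mul_cancel,
      Units.val_one, one_mul]
    exact hg
  obtain ⟨C₀, hC⟩ := FA.Chebotarev.exists_density_lower π hπ hker hX
    (δ := 1 / 8) (by norm_num)
  set S' := insert l S
  have hev : ∀ᶠ x : ℝ in 𝓝[>] 1, ((l : ℝ) / 16 - 6) * Real.log (1 / (x - 1)) ≤
      B + (l : ℝ) / 2 * (C₀ + S'.card) := by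
    filter_upwards [hC, hB, self_mem_nhdsWithin,
      FA.Chebotarev.tendsto_log_atTop.eventually_gt_atTop 0] with x hT hBx hx hlog
    obtain ⟨T, hT, hsum⟩ := hT
    have hr : 1 / 4 ≤ (Nat.card X : ℝ) / Fintype.card (GL (Fin 2) (ZMod l)) :=
      quarter_le (by omega)
    have hlow : 1 / 8 * Real.log (1 / (x - 1)) - C₀ ≤ ∑ p ∈ T, (p : ℝ) ^ (-x) :=
      (sub_le_sub_right (mul_le_mul_of_nonneg_right (by linarith) hlog.le) C₀).trans hsum
    have hsplit : ∑ p ∈ T, (p : ℝ) ^ (-x) ≤ ∑ p ∈ T \ S', (p : ℝ) ^ (-x) + S'.card := by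
      have hbad : ∑ p ∈ T ∩ S', (p : ℝ) ^ (-x) ≤ S'.card := by
        refine (Finset.sum_le_card_nsmul _ _ 1 fun p hp => ?_).trans ?_
        · exact Real.rpow_le_one_of_one_le_of_nonpos
            (by exact_mod_cast (hT p (Finset.mem_inter.mp hp).1).1.one_lt.le)
            (by linarith [hx.out])
        · rw [nsmul_eq_mul, mul_one]
          exact_mod_cast Finset.card_le_card Finset.inter_subset_right
      rw [← Finset.sum_inter_add_sum_sdiff T S' (fun p => (p : ℝ) ^ (-x))]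
      linarith
    have hmem : ∀ p ∈ T \ S', p.Prime ∧ p ∉ S := fun p hp => by
      obtain ⟨h1, h2⟩ := Finset.mem_sdiff.mp hp
      exact ⟨(hT p h1).1, fun h => h2 (Finset.mem_insert_of_mem h)⟩
    have hbig : (l : ℝ) / 2 * ∑ p ∈ T \ S', (p : ℝ) ^ (-x) ≤
        ∑ p ∈ T \ S', (E.LFunction p : ℝ) * (p : ℝ) ^ (-x) := by
      rw [Finset.mul_sum]
      refine Finset.sum_le_sum fun p hp => mul_le_mul_of_nonneg_right ?_
        (Real.rpow_nonneg (Nat.cast_nonneg _) _)
      obtain ⟨h1, h2⟩ := Finset.mem_sdiff.mp hp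
      obtain ⟨hp', hpS⟩ := hmem p hp
      obtain ⟨A, hA⟩ := FA.Deform.exists_liesOverPrime hp'
      obtain ⟨σ, hσ⟩ := FA.Deform.exists_isFrobeniusAt hp' hA
      have hσX : l < 2 * (FA.RT.curveRep l W σ).trace.val := (hT p h1).2 A hA σ hσ
      rw [(FA.Ribet.curveRep_frobenius (p := l) hp'
          (fun e => h2 (by rw [e]; exact Finset.mem_insert_self _ _)) (hgoodW p hp' hpS) hA hσ).1,
        ← FA.Root.LFunction_apply_prime E W hW' hp' (hgoodW p hp' hpS)] at hσX
      obtain ⟨-, hnn, -⟩ := hgood p hp' hpS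
      obtain ⟨a, ha⟩ := Int.eq_ofNat_of_zero_le hnn
      rw [ha, Int.cast_natCast, ZMod.val_natCast] at hσX
      rw [ha, Int.cast_natCast]
      have : l ≤ 2 * a := by have := Nat.mod_le a l; omega
      have : (l : ℝ) ≤ 2 * a := by exact_mod_cast this
      linarith
    have := hBx (T \ S') hmem
    have := mul_le_mul_of_nonneg_left (hlow.trans hsplit) (show (0 : ℝ) ≤ (l : ℝ) / 2 by positivity)
    linarith
  have hlim : Tendsto (fun x : ℝ => ((l : ℝ) / 16 - 6) * Real.log (1 / (x - 1))) (𝓝[>] 1) atTop :=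
    Tendsto.const_mul_atTop (by
      have : (200 : ℝ) < l := by exact_mod_cast (show 200 < l by omega)
      linarith) FA.Chebotarev.tendsto_log_atTop
  obtain ⟨x, h1, h2⟩ := (hev.and (hlim.eventually_gt_atTop
    (B + (l : ℝ) / 2 * (C₀ + S'.card)))).exists
  linarith

end FA.Signs

end
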