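import Fermat.Agent.Signs.Local
import Fermat.Agent.Signs.Landau
import Fermat.Agent.HasseBound.Euler
import Mathlib.NumberTheory.Harmonic.ZetaAsymp
import Mathlib.NumberTheory.LSeries.Convolution

/-!
# The series `L^S(E, s) ζ(2s - 1)²`

For a finite set `S` of primes, the coefficients of `L(E, s)` with the Euler factors at `S`
removed, and their convolution with the square of `∑ m (m²)^(-s) = ζ(2s - 1)`.
-/

set_option autoImplicit false
set_option linter.style.haveILetI false

noncomputable section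

open ArithmeticFunction Complex Filter Topology FA.HasseBound
open scoped ArithmeticFunction

namespace FA.Signs

/-- `n` at `n²`, `0` elsewhere. -/
def sqFun : ArithmeticFunction ℤ :=
  ⟨fun n => if n.sqrt * n.sqrt = n then (n.sqrt : ℤ) else 0, by simp⟩

theorem sqFun_mul_self (m : ℕ) : sqFun (m * m) = m := by
  show (if (m * m).sqrt * (m * m).sqrt = m * m then ((m * m).sqrt : ℤ) else 0) = m
  rw [Nat.sqrt_eq, if_pos rfl]

theorem sqFun_eq_zero {n : ℕ} (h : ¬ ∃ m, m * m = n) : sqFun n = 0 := by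
  show (if n.sqrt * n.sqrt = n then (n.sqrt : ℤ) else 0) = 0
  exact if_neg fun e => h ⟨_, e⟩

theorem isMultiplicative_sqFun : IsMultiplicative sqFun := by
  refine ⟨by simpa using sqFun_mul_self 1, fun {m n} hmn => ?_⟩
  by_cases hm : ∃ a, a * a = m
  · by_cases hn : ∃ b, b * b = n
    · obtain ⟨a, rfl⟩ := hm
      obtain ⟨b, rfl⟩ := hn
      rw [show a * a * (b * b) = a * b * (a * b) by ring, sqFun_mul_self, sqFun_mul_self,
        sqFun_mul_self]
      push_cast
      rfl
    · rw [sqFun_eq_zero hn, mul_zero, sqFun_eq_zero]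
      rintro ⟨k, hk⟩
      obtain ⟨d, hd⟩ := exists_eq_pow_of_mul_eq_pow (a := n) (b := m) (c := k) (k := 2)
        (by rw [gcd_eq_nat_gcd, hmn.symm]; exact isUnit_one) (by rw [mul_comm, ← hk, sq])
      exact hn ⟨d, by rw [hd, sq]⟩
  · rw [sqFun_eq_zero hm, zero_mul, sqFun_eq_zero]
    rintro ⟨k, hk⟩
    obtain ⟨d, hd⟩ := exists_eq_pow_of_mul_eq_pow (a := m) (b := n) (c := k) (k := 2)
      (by rw [gcd_eq_nat_gcd, hmn]; exact isUnit_one) (by rw [← hk, sq])
    exact hm ⟨d, by rw [hd, sq]⟩

theorem sqFun_prime {p : ℕ} (hp : p.Prime) : sqFun p = 0 :=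
  sqFun_eq_zero fun ⟨m, hm⟩ => by
    rcases hp.eq_one_or_self_of_dvd m ⟨m, hm.symm⟩ with h | h
    · exact hp.ne_one (by rw [← hm, h])
    · subst h
      exact hp.ne_one (Nat.eq_of_mul_eq_mul_left hp.pos (hm.trans (mul_one m).symm))

theorem sqFun_prime_pow_add_two {p : ℕ} (hp : p.Prime) (j : ℕ) :
    sqFun (p ^ (j + 2)) = p * sqFun (p ^ j) := by
  by_cases h : ∃ m, m * m = p ^ j
  · obtain ⟨m, hm⟩ := h
    rw [← hm, show p ^ (j + 2) = p * m * (p * m) by rw [pow_add, ← hm]; ring, sqFun_mul_self,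
      sqFun_mul_self]
    push_cast
    rfl
  · rw [sqFun_eq_zero h, mul_zero, sqFun_eq_zero]
    rintro ⟨m, hm⟩
    obtain ⟨c, rfl⟩ : p ∣ m := (hp.dvd_mul.mp ⟨p ^ (j + 1), by rw [hm]; ring⟩).elim id id
    refine h ⟨c, Nat.eq_of_mul_eq_mul_left (show 0 < p * p from Nat.mul_pos hp.pos hp.pos) ?_⟩
    rw [← mul_mul_mul_comm, hm]
    ring

theorem hasSum_sqFun {s : ℂ} (hs : 1 < s.re) :
    LSeriesHasSum (fun n => (sqFun n : ℂ)) s (riemannZeta (2 * s - 1)) := by
  have hw : 1 < (2 * s - 1).re := by simp; linarith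
  have hinj : Function.Injective fun m : ℕ => m * m := fun a b h => by
    have := Nat.mul_self_inj.mp h
    exact this
  refine (hinj.hasSum_iff (f := LSeries.term (fun n => (sqFun n : ℂ)) s) fun n hn => ?_).mp ?_
  · rcases eq_or_ne n 0 with rfl | hn0
    · simp
    · rw [LSeries.term_of_ne_zero hn0, sqFun_eq_zero fun ⟨m, hm⟩ => hn ⟨m, hm⟩, Int.cast_zero,
        zero_div]
  · have h1 := (Complex.summable_one_div_nat_cpow.mpr hw).hasSum
    rw [← zeta_eq_tsum_one_div_nat_cpow hw] at h1
    refine h1.congr_fun fun m => ?_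
    rcases eq_or_ne m 0 with rfl | hm
    · simp [Complex.zero_cpow (show (2 * s - 1) ≠ 0 from fun e => by rw [e] at hw; simp at hw; linarith)]
    · have hm' : (m : ℂ) ≠ 0 := Nat.cast_ne_zero.mpr hm
      show LSeries.term _ s (m * m) = _
      rw [LSeries.term_of_ne_zero (mul_ne_zero hm hm), sqFun_mul_self, Nat.cast_mul,
        Complex.natCast_mul_natCast_cpow, Int.cast_natCast, Complex.cpow_sub _ _ hm',
        Complex.cpow_one, two_mul, Complex.cpow_add _ _ hm', one_div_div]

variable (E : WeierstrassCurve ℚ) (S : Finset ℕ)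

/-- The coefficients prime to `S`. -/
def stripped : ArithmeticFunction ℤ :=
  ⟨fun n => if ∀ p ∈ S, ¬ p ∣ n then E.LFunction n else 0, by simp⟩

theorem stripped_apply (n : ℕ) :
    stripped E S n = if ∀ p ∈ S, ¬ p ∣ n then E.LFunction n else 0 := rfl

theorem isMultiplicative_stripped (hS : ∀ p ∈ S, p.Prime) : IsMultiplicative (stripped E S) := by
  have hL := FA.Root.isMultiplicative_LFunction E
  refine ⟨?_, fun {m n} hmn => ?_⟩
  · rw [stripped_apply, if_pos fun p hp h => (hS p hp).one_lt.ne' (Nat.dvd_one.mp h), hL.map_one]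
  · simp only [stripped_apply]
    by_cases hm : ∀ p ∈ S, ¬ p ∣ m
    · by_cases hn : ∀ p ∈ S, ¬ p ∣ n
      · rw [if_pos hm, if_pos hn, if_pos fun p hp h => ((hS p hp).dvd_mul.mp h).elim (hm p hp)
          (hn p hp), hL.map_mul_of_coprime hmn]
      · rw [if_neg hn, mul_zero, if_neg fun h => hn fun p hp h' => h p hp (h'.mul_left m)]
    · rw [if_neg hm, zero_mul, if_neg fun h => hm fun p hp h' => h p hp (h'.mul_right n)]

/-- The convolution at a prime power. -/
theorem mul_apply_prime_pow (f g : ArithmeticFunction ℤ) {p : ℕ} (hp : p.Prime) (k : ℕ) :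
    (f * g) (p ^ k) = ∑ i ∈ Finset.range (k + 1), f (p ^ i) * g (p ^ (k - i)) := by
  rw [ArithmeticFunction.mul_apply, Nat.sum_divisorsAntidiagonal (fun a b => f a * g b),
    Nat.sum_divisors_prime_pow hp]
  exact Finset.sum_congr rfl fun i hi => by
    rw [Nat.pow_div (by simpa [Nat.lt_succ_iff] using hi) hp.pos]

/-- The Euler factor at a prime, as an arithmetic function. -/
def factor (p : Nat.Primes) : ArithmeticFunction ℤ :=
  ofPowerSeries p ((localPoly E p : Polynomial ℤ) : PowerSeries ℤ)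

theorem isMultiplicative_factor (p : Nat.Primes) : IsMultiplicative (factor E p) :=
  isMultiplicative_ofPowerSeries_of_isPrimePow _ p.2.isPrimePow _ (by
    rw [← PowerSeries.coeff_zero_eq_constantCoeff, Polynomial.coeff_coe, localPoly,
      coeff_zero_localPolynomial])

theorem factor_pow (p : Nat.Primes) (k : ℕ) :
    factor E p ((p : ℕ) ^ k) = (localPoly E p).coeff k := by
  rw [factor, ofPowerSeries_apply_pow p.2.one_lt, Polynomial.coeff_coe]

theorem factor_eq_zero (p : Nat.Primes) {n : ℕ} (h : ¬ ∃ k, (p : ℕ) ^ k = n) :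
    factor E p n = 0 := by
  rw [factor, ofPowerSeries_apply p.2.one_lt, Function.extend_apply' _ _ _ h, Pi.zero_apply]

theorem factor_support (p : Nat.Primes) {n : ℕ}
    (h : n ∉ (Finset.range ((localPoly E p).natDegree + 1)).image ((p : ℕ) ^ ·)) :
    factor E p n = 0 := by
  by_cases hk : ∃ k, (p : ℕ) ^ k = n
  · obtain ⟨k, rfl⟩ := hk
    rw [factor_pow]
    refine Polynomial.coeff_eq_zero_of_natDegree_lt ?_
    by_contra hlt
    exact h (Finset.mem_image.mpr ⟨k, Finset.mem_range.mpr (by omega), rfl⟩)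
  · exact factor_eq_zero E p hk

theorem stripped_insert (hS : ∀ q ∈ S, q.Prime) (p : Nat.Primes) (hpS : (p : ℕ) ∉ S) :
    stripped E (insert (p : ℕ) S) = stripped E S * factor E p := by
  have hS' : ∀ q ∈ insert (p : ℕ) S, q.Prime := fun q hq => by
    rcases Finset.mem_insert.mp hq with rfl | hq
    exacts [p.2, hS q hq]
  refine ((isMultiplicative_stripped E _ hS').eq_iff_eq_on_prime_powers _ _
    ((isMultiplicative_stripped E S hS).mul (isMultiplicative_factor E p))).mpr fun q k hq => ?_
  rw [mul_apply_prime_pow _ _ hq]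
  by_cases hqp : q = p
  · subst hqp
    have hcop : ∀ i, ∀ r ∈ S, ¬ r ∣ (p : ℕ) ^ i := fun i r hr h => by
      have := (Nat.prime_dvd_prime_iff_eq (hS r hr) p.2).mp ((hS r hr).dvd_of_dvd_pow h)
      exact hpS (this ▸ hr)
    have h1 : ∑ i ∈ Finset.range (k + 1), stripped E S ((p : ℕ) ^ i) *
        factor E p ((p : ℕ) ^ (k - i)) = if k = 0 then 1 else 0 := by
      rw [← sum_coeff_mul_LFunction E p k, Finset.Nat.sum_antidiagonal_eq_sum_range_succ_mk]
      exact Finset.sum_congr rfl fun i _ => by rw [stripped_apply, if_pos (hcop i), factor_pow]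
    rw [h1, stripped_apply]
    rcases eq_or_ne k 0 with rfl | hk
    · rw [pow_zero, if_pos fun r hr h => (hS' r hr).one_lt.ne' (Nat.dvd_one.mp h), if_pos rfl,
        (FA.Root.isMultiplicative_LFunction E).map_one]
    · rw [if_neg hk, if_neg fun h => h _ (Finset.mem_insert_self _ _) (dvd_pow_self _ hk)]
  · rw [Finset.sum_eq_single k (fun i hi hik => ?_) (fun h => absurd (Finset.self_mem_range_succ k) h)]
    · rw [Nat.sub_self, pow_zero, (isMultiplicative_factor E p).map_one, mul_one, stripped_apply,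
        stripped_apply]
      refine if_congr ⟨fun h r hr => h r (Finset.mem_insert_of_mem hr), fun h r hr => ?_⟩ rfl rfl
      rcases Finset.mem_insert.mp hr with rfl | hr
      · exact fun h' => hqp ((Nat.prime_dvd_prime_iff_eq p.2 hq).mp (p.2.dvd_of_dvd_pow h')).symm
      · exact h r hr
    · rw [factor_eq_zero E p, mul_zero]
      rintro ⟨j, hj⟩
      have hpos : k - i ≠ 0 := by
        have := Finset.mem_range.mp hi
        omega
      exact hqp ((Nat.prime_dvd_prime_iff_eq hq p.2).mp
        (hq.dvd_of_dvd_pow (show q ∣ (p : ℕ) ^ j from hj ▸ dvd_pow_self q hpos)))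

/-- Removing finitely many factors keeps the entire continuation. -/
theorem exists_stripped_continuation {g : ℂ → ℂ} (hg : Differentiable ℂ g)
    (heq : ∀ s : ℂ, 3 / 2 < s.re → LSeriesSummable ((↑) ∘ E.LFunction) s ∧ E.LSeries s = g s) :
    (∀ q ∈ S, q.Prime) → ∃ G : ℂ → ℂ, Differentiable ℂ G ∧ ∀ s : ℂ, 3 / 2 < s.re →
      LSeriesSummable (fun n => (stripped E S n : ℂ)) s ∧
        LSeries (fun n => (stripped E S n : ℂ)) s = G s := by
  induction S using Finset.induction_on with
  | empty =>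
    intro _
    refine ⟨g, hg, fun s hs => ?_⟩
    have e : (fun n => (stripped E ∅ n : ℂ)) = (↑) ∘ E.LFunction := funext fun n => by
      simp [stripped_apply]
    rw [e]
    exact heq s hs
  | @insert q S hqS ih =>
    intro hS
    have hS' : ∀ r ∈ S, r.Prime := fun r hr => hS r (Finset.mem_insert_of_mem hr)
    obtain ⟨G, hG, hGs⟩ := ih hS'
    let p : Nat.Primes := ⟨q, hS q (Finset.mem_insert_self _ _)⟩
    set K := (Finset.range ((localPoly E p).natDegree + 1)).image ((p : ℕ) ^ ·)
    let P : ℂ → ℂ := fun s => ∑ n ∈ K, LSeries.term (fun m => (factor E p m : ℂ)) s n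
    have hP : ∀ s, LSeriesHasSum (fun m => (factor E p m : ℂ)) s (P s) := fun s =>
      hasSum_sum_of_ne_finset_zero fun n hn => by
        rcases eq_or_ne n 0 with rfl | h0
        · simp
        · rw [LSeries.term_of_ne_zero h0, factor_support E p hn, Int.cast_zero, zero_div]
    refine ⟨fun s => G s * P s, hG.mul fun s =>
      DifferentiableAt.fun_sum fun n _ => differentiable_term _ n s, fun s hs => ?_⟩
    obtain ⟨h1, h2⟩ := hGs s hs
    have e : (fun n => (stripped E (insert q S) n : ℂ)) =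
        LSeries.convolution (fun n => (stripped E S n : ℂ)) fun m => (factor E p m : ℂ) := by
      funext n
      rw [show stripped E (insert q S) = stripped E S * factor E p from
        stripped_insert E S hS' p hqS, ArithmeticFunction.mul_apply, LSeries.convolution_def]
      push_cast
      rfl
    have := h1.LSeriesHasSum.convolution (hP s)
    rw [e]
    exact ⟨this.LSeriesSummable, by rw [this.LSeries_eq, h2]⟩

/-- The coefficients of `L^S(E, s) ζ(2s - 1)²`. -/
def boosted : ArithmeticFunction ℤ := stripped E S * sqFun * sqFun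

theorem isMultiplicative_boosted (hS : ∀ p ∈ S, p.Prime) : IsMultiplicative (boosted E S) :=
  ((isMultiplicative_stripped E S hS).mul isMultiplicative_sqFun).mul isMultiplicative_sqFun

theorem mul_sqFun_recur (f : ArithmeticFunction ℤ) {p : ℕ} (hp : p.Prime) :
    (f * sqFun) (p ^ 0) = f (p ^ 0) ∧ (f * sqFun) (p ^ 1) = f (p ^ 1) ∧
      ∀ k, (f * sqFun) (p ^ (k + 2)) = f (p ^ (k + 2)) + p * (f * sqFun) (p ^ k) := by
  have h1 : sqFun 1 = 1 := isMultiplicative_sqFun.map_one
  refine ⟨?_, ?_, fun k => ?_⟩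
  · rw [mul_apply_prime_pow _ _ hp]
    simp [h1]
  · rw [mul_apply_prime_pow _ _ hp]
    simp [Finset.sum_range_succ, h1, sqFun_prime hp]
  · rw [mul_apply_prime_pow _ _ hp, mul_apply_prime_pow _ _ hp, Finset.sum_range_succ,
      Finset.sum_range_succ, Nat.sub_self, pow_zero, h1, mul_one,
      show k + 2 - (k + 1) = 1 by omega, pow_one, sqFun_prime hp, mul_zero, add_zero,
      Finset.mul_sum, add_comm]
    refine congrArg (_ + ·) (Finset.sum_congr rfl fun i hi => ?_)
    have := Finset.mem_range.mp hi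
    rw [show k + 2 - i = k - i + 2 by omega, sqFun_prime_pow_add_two hp]
    ring

/-- **Nonnegativity of all coefficients**, if `a_p ≥ 0` off `S` and the primes off `S` are good. -/
theorem boosted_nonneg (hS : ∀ p ∈ S, p.Prime)
    (hgood : ∀ p : ℕ, p.Prime → p ∉ S → (E.LFunction p) ^ 2 ≤ 4 * p ∧ 0 ≤ E.LFunction p ∧
      ∀ r, E.LFunction (p ^ (r + 2)) =
        E.LFunction p * E.LFunction (p ^ (r + 1)) - p * E.LFunction (p ^ r)) (n : ℕ) :
    0 ≤ boosted E S n := by
  rcases eq_or_ne n 0 with rfl | hn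
  · simp
  rw [(isMultiplicative_boosted E S hS).multiplicative_factorization _ hn]
  refine Finset.prod_nonneg fun p hp => ?_
  have hpp : p.Prime := Nat.prime_of_mem_primeFactors (Nat.support_factorization n ▸ hp)
  obtain ⟨hD0, hD1, hD⟩ := mul_sqFun_recur (stripped E S) hpp
  obtain ⟨hC0, hC1, hC⟩ := mul_sqFun_recur (stripped E S * sqFun) hpp
  have hu0 : stripped E S (p ^ 0) = 1 := by
    rw [pow_zero]; exact (isMultiplicative_stripped E S hS).map_one
  generalize n.factorization p = k
  by_cases hpS : p ∈ S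
  · have hu : ∀ j, stripped E S (p ^ (j + 1)) = 0 := fun j => by
      rw [stripped_apply, if_neg fun h => h p hpS (dvd_pow_self p (Nat.succ_ne_zero j))]
    have hD' : ∀ j, 0 ≤ (stripped E S * sqFun) (p ^ j) := fun j => by
      induction j using Nat.twoStepInduction with
      | zero => rw [hD0, hu0]; norm_num
      | one => rw [hD1, hu 0]
      | more j ih _ => rw [hD, hu (j + 1), zero_add]; positivity
    have hC' : ∀ j, 0 ≤ boosted E S (p ^ j) := fun j => by
      unfold boosted
      induction j using Nat.twoStepInduction with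
      | zero => rw [hC0]; exact hD' 0
      | one => rw [hC1]; exact hD' 1
      | more j ih _ => rw [hC]; exact add_nonneg (hD' _) (by positivity)
    exact hC' k
  · obtain ⟨hab, ha, hrec⟩ := hgood p hpp hpS
    have hcop : ∀ j, stripped E S (p ^ j) = E.LFunction (p ^ j) := fun j => by
      rw [stripped_apply, if_pos fun q hq h => hpS
        ((Nat.prime_dvd_prime_iff_eq (hS q hq) hpp).mp ((hS q hq).dvd_of_dvd_pow h) ▸ hq)]
    have h := local_nonneg (p := (p : ℝ)) (a := (E.LFunction p : ℝ)) (by exact_mod_cast hpp.pos)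
      (by exact_mod_cast ha) (by exact_mod_cast hab)
      (u := fun j => (stripped E S (p ^ j) : ℝ))
      (D := fun j => ((stripped E S * sqFun) (p ^ j) : ℝ))
      (C := fun j => (boosted E S (p ^ j) : ℝ))
      (by exact_mod_cast hu0) (by rw [hcop, pow_one])
      (fun j => by
        simp only [hcop]
        exact_mod_cast hrec j)
      (by exact_mod_cast hD0.trans hu0) (by rw [hD1, hcop, pow_one])
      (fun j => by exact_mod_cast hD j)
      (by unfold boosted; exact_mod_cast (hC0.trans hD0).trans hu0)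
      (by unfold boosted; rw [hC1, hD1, hcop, pow_one])
      (fun j => by unfold boosted; exact_mod_cast hC j) k
    exact_mod_cast h

theorem boosted_prime (hS : ∀ p ∈ S, p.Prime) {p : ℕ} (hp : p.Prime) (hpS : p ∉ S) :
    boosted E S p = E.LFunction p := by
  obtain ⟨-, hD1, -⟩ := mul_sqFun_recur (stripped E S) hp
  obtain ⟨-, hC1, -⟩ := mul_sqFun_recur (stripped E S * sqFun) hp
  rw [boosted]
  calc (stripped E S * sqFun * sqFun) p = (stripped E S * sqFun * sqFun) (p ^ 1) := by rw [pow_one]
    _ = stripped E S (p ^ 1) := hC1.trans hD1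
    _ = E.LFunction p := by
      rw [pow_one, stripped_apply, if_pos fun q hq h => hpS
        ((Nat.prime_dvd_prime_iff_eq (hS q hq) hp).mp h ▸ hq)]

/-- The continuation of the series and its growth at `1`. -/
theorem exists_boosted_continuation {g : ℂ → ℂ} (hg : Differentiable ℂ g)
    (heq : ∀ s : ℂ, 3 / 2 < s.re → LSeriesSummable ((↑) ∘ E.LFunction) s ∧ E.LSeries s = g s)
    (hS : ∀ q ∈ S, q.Prime) :
    ∃ F : ℂ → ℂ, DifferentiableOn ℂ F {s | 1 < s.re} ∧
      (∀ s : ℂ, 3 / 2 < s.re → LSeriesSummable (fun n => (boosted E S n : ℂ)) s ∧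
        LSeries (fun n => (boosted E S n : ℂ)) s = F s) ∧
      ∃ K : ℝ, 0 < K ∧ ∀ᶠ x : ℝ in 𝓝[>] 1, ‖F x‖ ≤ K / (x - 1) ^ 2 := by
  obtain ⟨G, hG, hGs⟩ := exists_stripped_continuation E S hg heq hS
  refine ⟨fun s => G s * riemannZeta (2 * s - 1) * riemannZeta (2 * s - 1), ?_, fun s hs => ?_, ?_⟩
  · have hz : DifferentiableOn ℂ (fun s => riemannZeta (2 * s - 1)) {s | 1 < s.re} := fun s hs => by
      refine (DifferentiableAt.comp s (differentiableAt_riemannZeta ?_) (by fun_prop)).differentiableWithinAt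
      intro e
      have := congrArg Complex.re e
      simp at this hs
      linarith
    exact (hG.differentiableOn.mul hz).mul hz
  · obtain ⟨h1, h2⟩ := hGs s hs
    have hz := hasSum_sqFun (s := s) (by linarith)
    have e : (fun n => (boosted E S n : ℂ)) = LSeries.convolution (LSeries.convolution
        (fun n => (stripped E S n : ℂ)) fun n => (sqFun n : ℂ)) fun n => (sqFun n : ℂ) := by
      funext n
      simp only [boosted, ArithmeticFunction.mul_apply, LSeries.convolution_def, Int.cast_sum,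
        Int.cast_mul]
    have h3 := (h1.LSeriesHasSum.convolution hz).convolution hz
    rw [e]
    exact ⟨h3.LSeriesSummable, by rw [h3.LSeries_eq, h2]⟩
  · have hmap : Tendsto (fun x : ℝ => 2 * (x : ℂ) - 1) (𝓝[>] 1) (𝓝[≠] 1) := by
      refine tendsto_nhdsWithin_iff.mpr ⟨?_, ?_⟩
      · exact (Continuous.tendsto' (by fun_prop) (1 : ℝ) (1 : ℂ) (by norm_num)).mono_left
          nhdsWithin_le_nhds
      · filter_upwards [self_mem_nhdsWithin] with x hx e
        have e' := congrArg Complex.re (Set.mem_singleton_iff.mp e)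
        simp at e'
        linarith [hx.out]
    have hres := (riemannZeta_residue_one.comp hmap).norm
    have hGt : Tendsto (fun x : ℝ => ‖G x‖) (𝓝[>] 1) (𝓝 ‖G ((1 : ℝ) : ℂ)‖) :=
      ((hG.continuous.comp Complex.continuous_ofReal).norm.tendsto (1 : ℝ)).mono_left
        nhdsWithin_le_nhds
    refine ⟨(‖G ((1 : ℝ) : ℂ)‖ + 1) * 4, by positivity, ?_⟩
    filter_upwards [hres.eventually_lt_const (show ‖(1 : ℂ)‖ < 2 by norm_num),
      hGt.eventually_lt_const (lt_add_one _), self_mem_nhdsWithin] with x hz hx hpos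
    have hx1 : 0 < x - 1 := sub_pos.mpr hpos
    rw [Function.comp_apply, norm_mul,
      show 2 * (x : ℂ) - 1 - 1 = ((2 * (x - 1) : ℝ) : ℂ) by push_cast; ring, norm_real,
      Real.norm_eq_abs, abs_of_pos (by linarith)] at hz
    have hz' : ‖riemannZeta (2 * (x : ℂ) - 1)‖ ≤ 1 / (x - 1) := by
      rw [le_div_iff₀ hx1]
      linarith
    calc ‖G x * riemannZeta (2 * (x : ℂ) - 1) * riemannZeta (2 * (x : ℂ) - 1)‖
        ≤ (‖G ((1 : ℝ) : ℂ)‖ + 1) * (1 / (x - 1)) * (1 / (x - 1)) := by
          rw [norm_mul, norm_mul]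
          gcongr
      _ = (‖G ((1 : ℝ) : ℂ)‖ + 1) * 1 / (x - 1) ^ 2 := by field_simp
      _ ≤ _ := by gcongr; norm_num

end FA.Signs

end
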